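import Fermat.Agent.LittlewoodCubic.Strip
import Mathlib.NumberTheory.NumberField.Units.DirichletTheorem
import Mathlib.RingTheory.Norm.Transitivity
import Mathlib.RingTheory.Trace.Basic
import Mathlib.FieldTheory.IntermediateField.Adjoin.Basic
import Mathlib.Analysis.SpecialFunctions.Complex.Arg

/-!
# Integers of a cubic field with a prescribed pair of small conjugates
-/

set_option autoImplicit false

noncomputable section

open NumberField

namespace FA.LittlewoodCubic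

/-- The embeddings of a cubic field with a real one singled out. -/
structure Conjugates (K : Type) [Field K] [NumberField K] where
  /-- The real embedding. -/
  e : K →+* ℂ
  /-- The second embedding. -/
  s : K →+* ℂ
  /-- The third embedding. -/
  t : K →+* ℂ
  e_real : ∀ x, (starRingEnd ℂ) (e x) = e x
  es : e ≠ s
  et : e ≠ t
  st : s ≠ t
  all : ∀ φ : K →+* ℂ, φ = e ∨ φ = s ∨ φ = t
  deg : Module.finrank ℚ K = 3

variable {K : Type} [Field K] [NumberField K]

theorem exists_conjugates (hdeg : Module.finrank ℚ K = 3) (e : K →+* ℂ)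
    (he : ∀ x, (starRingEnd ℂ) (e x) = e x) : ∃ c : Conjugates K, c.e = e := by
  classical
  have hcard : Fintype.card (K →+* ℂ) = 3 := (Embeddings.card K ℂ).trans hdeg
  have h2 : ((Finset.univ : Finset (K →+* ℂ)).erase e).card = 2 := by
    rw [Finset.card_erase_of_mem (Finset.mem_univ _), Finset.card_univ, hcard]
  obtain ⟨s, t, hst, heq⟩ := Finset.card_eq_two.1 h2
  have hs : s ∈ (Finset.univ : Finset (K →+* ℂ)).erase e := by simp [heq]
  have ht : t ∈ (Finset.univ : Finset (K →+* ℂ)).erase e := by simp [heq]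
  refine ⟨⟨e, s, t, he, (Finset.ne_of_mem_erase hs).symm, (Finset.ne_of_mem_erase ht).symm, hst,
    fun φ => ?_, hdeg⟩, rfl⟩
  by_contra! h
  have hm : φ ∈ (Finset.univ : Finset (K →+* ℂ)).erase e :=
    Finset.mem_erase.2 ⟨h.1, Finset.mem_univ _⟩
  simp [heq, h.2.1, h.2.2] at hm

namespace Conjugates

variable (c : Conjugates K)

theorem trace_eq (x : K) : ((Algebra.trace ℚ K x : ℚ) : ℂ) = c.e x + c.s x + c.t x := by
  classical
  rw [← eq_ratCast (algebraMap ℚ ℂ), trace_eq_sum_embeddings ℂ,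
    ← (RingHom.equivRatAlgHom K ℂ).sum_comp]
  have hu : (Finset.univ : Finset (K →+* ℂ)) = {c.e, c.s, c.t} := by
    refine Finset.ext fun φ => ?_
    simp only [Finset.mem_univ, Finset.mem_insert, Finset.mem_singleton, true_iff]
    exact c.all φ
  rw [hu, Finset.sum_insert (by simp [c.es, c.et]), Finset.sum_insert (by simp [c.st]),
    Finset.sum_singleton, add_assoc]
  rfl

theorem norm_eq (x : K) : ((Algebra.norm ℚ x : ℚ) : ℂ) = c.e x * c.s x * c.t x := by
  classical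
  rw [← eq_ratCast (algebraMap ℚ ℂ), Algebra.norm_eq_prod_embeddings ℚ ℂ,
    ← (RingHom.equivRatAlgHom K ℂ).prod_comp]
  have hu : (Finset.univ : Finset (K →+* ℂ)) = {c.e, c.s, c.t} := by
    refine Finset.ext fun φ => ?_
    simp only [Finset.mem_univ, Finset.mem_insert, Finset.mem_singleton, true_iff]
    exact c.all φ
  rw [hu, Finset.prod_insert (by simp [c.es, c.et]), Finset.prod_insert (by simp [c.st]),
    Finset.prod_singleton, mul_assoc]
  rfl

/-- An element with two equal conjugates is rational. -/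
theorem rat_of_eq (c : Conjugates K) {σ τ : K →+* ℂ} (hne : σ ≠ τ) {x : K} (h : σ x = τ x) :
    ∃ r : ℚ, x = r := by
  have := IntermediateField.isSimpleOrder_of_finrank_prime ℚ K (c.deg ▸ Nat.prime_three)
  let F : IntermediateField ℚ K :=
    (σ.eqLocusField τ).toIntermediateField fun r => by simp
  rcases IsSimpleOrder.eq_bot_or_eq_top F with hb | ht
  · have hx : x ∈ F := h
    rw [hb, IntermediateField.mem_bot] at hx
    obtain ⟨r, hr⟩ := hx
    exact ⟨r, by rw [← hr, eq_ratCast]⟩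
  · refine absurd (RingHom.ext fun y => ?_) hne
    have hy : y ∈ F := ht ▸ IntermediateField.mem_top
    exact hy

/-- A unit with two equal conjugates has absolute value one everywhere. -/
theorem norm_unit_eq_one (c : Conjugates K) {σ τ : K →+* ℂ} (hne : σ ≠ τ) {u : (𝓞 K)ˣ}
    (h : σ (u : K) = τ (u : K)) (φ : K →+* ℂ) : ‖φ (u : K)‖ = 1 := by
  obtain ⟨r, hr⟩ := c.rat_of_eq hne h
  have hn := NumberField.Units.norm K u
  rw [hr] at hn
  rw [show ((r : ℚ) : K) = algebraMap ℚ K r by simp, Algebra.norm_algebraMap, c.deg, abs_pow,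
    pow_eq_one_iff_of_nonneg (abs_nonneg r) (by norm_num)] at hn
  rw [hr, map_ratCast, ← Complex.ofReal_ratCast, Complex.norm_real, Real.norm_eq_abs,
    ← Rat.cast_abs, hn, Rat.cast_one]

theorem norm_mul_unit (u : (𝓞 K)ˣ) : ‖c.e (u : K)‖ * ‖c.s (u : K)‖ * ‖c.t (u : K)‖ = 1 := by
  rw [← norm_mul, ← norm_mul, ← c.norm_eq, ← Complex.ofReal_ratCast, Complex.norm_real,
    Real.norm_eq_abs, ← Rat.cast_abs, NumberField.Units.norm, Rat.cast_one]

omit [NumberField K] in
theorem unit_pos (φ : K →+* ℂ) (u : (𝓞 K)ˣ) : 0 < ‖φ (u : K)‖ :=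
  norm_pos_iff.2 (by
    rw [ne_eq, map_eq_zero]
    exact NumberField.Units.coe_ne_zero u)

theorem log_sum (u : (𝓞 K)ˣ) :
    Real.log ‖c.e (u : K)‖ + Real.log ‖c.s (u : K)‖ + Real.log ‖c.t (u : K)‖ = 0 := by
  have he := (unit_pos c.e u).ne'
  have hs := (unit_pos c.s u).ne'
  have ht := (unit_pos c.t u).ne'
  rw [← Real.log_mul he hs, ← Real.log_mul (mul_ne_zero he hs) ht, c.norm_mul_unit, Real.log_one]

omit [NumberField K] in
theorem map_unit_zpow (φ : K →+* ℂ) (u v : (𝓞 K)ˣ) (m n : ℤ) :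
    φ ((u ^ m * v ^ n : (𝓞 K)ˣ) : K) = φ (u : K) ^ m * φ (v : K) ^ n := by
  rw [NumberField.Units.coe_mul, NumberField.Units.coe_zpow, NumberField.Units.coe_zpow, map_mul,
    map_zpow₀, map_zpow₀]

omit [NumberField K] in
theorem log_norm_zpow (φ : K →+* ℂ) (u v : (𝓞 K)ˣ) (m n : ℤ) :
    Real.log ‖φ ((u ^ m * v ^ n : (𝓞 K)ˣ) : K)‖ =
      m * Real.log ‖φ (u : K)‖ + n * Real.log ‖φ (v : K)‖ := by
  rw [map_unit_zpow, norm_mul, norm_zpow, norm_zpow,
    Real.log_mul (zpow_ne_zero _ (unit_pos φ u).ne') (zpow_ne_zero _ (unit_pos φ v).ne'),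
    Real.log_zpow, Real.log_zpow]

theorem conj_cases : ((∀ x, (starRingEnd ℂ) (c.s x) = c.s x) ∧
      (∀ x, (starRingEnd ℂ) (c.t x) = c.t x)) ∨
    (∀ x, c.t x = (starRingEnd ℂ) (c.s x)) := by
  have hS := c.all ((starRingEnd ℂ).comp c.s)
  have hT := c.all ((starRingEnd ℂ).comp c.t)
  have hne : ∀ {φ : K →+* ℂ}, c.e ≠ φ → (starRingEnd ℂ).comp φ ≠ c.e := fun {φ} hφ h =>
    hφ (RingHom.ext fun x => by
      have h' := congrArg (starRingEnd ℂ) (RingHom.congr_fun h x)
      rw [RingHom.comp_apply, Complex.conj_conj, c.e_real] at h'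
      exact h'.symm)
  rcases hS.resolve_left (hne c.es) with h | h
  · refine Or.inl ⟨fun x => RingHom.congr_fun h x, fun x => ?_⟩
    rcases hT.resolve_left (hne c.et) with h' | h'
    · refine absurd (RingHom.ext fun y => ?_) c.st
      have e1 := congrArg (starRingEnd ℂ) (RingHom.congr_fun h' y)
      rw [RingHom.comp_apply, Complex.conj_conj] at e1
      rw [e1]
      exact (RingHom.congr_fun h y).symm
    · exact RingHom.congr_fun h' x
  · exact Or.inr fun x => (RingHom.congr_fun h x).symm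

theorem exists_unit_big (φ : K →+* ℂ) : ∃ u : (𝓞 K)ˣ, ∀ ψ : K →+* ℂ, ψ ≠ φ →
    ComplexEmbedding.conjugate ψ ≠ φ → Real.log ‖ψ (u : K)‖ < 0 := by
  obtain ⟨u, hu⟩ := Units.dirichletUnitTheorem.exists_unit K (InfinitePlace.mk φ)
  refine ⟨u, fun ψ h1 h2 => ?_⟩
  have h := hu (InfinitePlace.mk ψ) fun h => (InfinitePlace.mk_eq_iff.1 h).elim h1 h2
  rwa [InfinitePlace.apply] at h

/-- **The complex case.** -/
theorem exists_small_complex (hc : ∀ x, c.t x = (starRingEnd ℂ) (c.s x)) (κ : ℂ) {ε : ℝ}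
    (hε : 0 < ε) (R : ℝ) :
    ∃ x : K, IsIntegral ℤ x ∧ R < ‖c.e x‖ ∧ ‖c.s x‖ ≤ 1 / Real.sqrt ‖c.e x‖ ∧
      ‖c.t x‖ ≤ 1 / Real.sqrt ‖c.e x‖ ∧
      ‖κ * c.s x + (starRingEnd ℂ) κ * c.t x‖ ≤ ε / Real.sqrt ‖c.e x‖ := by
  obtain ⟨u, hu⟩ := exists_unit_big (K := K) c.e
  have hsu : Real.log ‖c.s (u : K)‖ < 0 := hu c.s c.es.symm fun h => c.et (RingHom.ext fun x => by
    rw [hc x]
    exact (RingHom.congr_fun h x).symm)
  have htn : ∀ y : K, ‖c.t y‖ = ‖c.s y‖ := fun y => by rw [hc y, Complex.norm_conj]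
  have hA1 : 0 < Real.log ‖c.e (u : K)‖ := by
    have h := c.log_sum u
    rw [htn] at h
    linarith
  set φ := Complex.arg (c.s (u : K)) with hφ
  have hirr : Irrational (Real.pi / φ) := by
    rintro ⟨r, hr⟩
    -- otherwise a power of the conjugate is real
    obtain ⟨a, b, hb, hab⟩ : ∃ a b : ℤ, b ≠ 0 ∧ (b : ℝ) * φ = a * Real.pi := by
      rcases eq_or_ne φ 0 with h0 | h0
      · exact ⟨0, 1, one_ne_zero, by simp [h0]⟩
      · have hr0 : r ≠ 0 := fun e => by
          rw [e, Rat.cast_zero, eq_comm, div_eq_zero_iff] at hr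
          exact hr.elim Real.pi_ne_zero h0
        refine ⟨r.den, r.num, Rat.num_ne_zero.2 hr0, ?_⟩
        rw [Rat.cast_def, div_eq_div_iff (by exact_mod_cast r.den_nz) h0] at hr
        push_cast
        linarith
    have hreal : (starRingEnd ℂ) (c.s (u : K) ^ b) = c.s (u : K) ^ b := by
      rw [← Complex.norm_mul_exp_arg_mul_I (c.s (u : K)), ← hφ, mul_zpow, ← Complex.exp_int_mul,
        ← mul_assoc, show ((b : ℂ) * (φ : ℂ)) = ((a * Real.pi : ℝ) : ℂ) by
          rw [← hab]; push_cast; rfl]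
      refine Complex.conj_eq_iff_im.2 ?_
      rw [Complex.mul_im, Complex.exp_ofReal_mul_I_im, Real.sin_int_mul_pi, mul_zero,
        ← Complex.ofReal_zpow, Complex.ofReal_im, zero_mul, add_zero]
    have h1 := c.norm_unit_eq_one c.st (u := u ^ b)
      (by rw [NumberField.Units.coe_zpow, map_zpow₀ c.s, map_zpow₀ c.t, hc,
        ← map_zpow₀ (starRingEnd ℂ), hreal]) c.e
    rw [NumberField.Units.coe_zpow, map_zpow₀, norm_zpow] at h1
    have h2 := congrArg Real.log h1
    rw [Real.log_zpow, Real.log_one, mul_eq_zero, Int.cast_eq_zero] at h2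
    exact h2.elim hb hA1.ne'
  have hη : 0 < ε / (2 * ‖κ‖ + 1) := by positivity
  obtain ⟨k, j, hstrip, hfar⟩ := exists_far_in_strip (A1 := Real.log ‖c.e (u : K)‖) (a1 := φ)
    (A2 := 0) (a2 := Real.pi) (by simpa using mul_ne_zero hA1.ne' Real.pi_ne_zero) hirr
    (Real.pi / 2 - Complex.arg κ) hη (Real.log (max R 1))
  simp only [mul_zero, add_zero] at hfar
  refine ⟨((u ^ k : (𝓞 K)ˣ) : K), RingOfIntegers.isIntegral_coe _, ?_⟩
  rw [NumberField.Units.coe_zpow]
  simp only [map_zpow₀, norm_zpow, htn]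
  have he0 : 0 < ‖c.e (u : K)‖ ^ k := zpow_pos (unit_pos c.e u) _
  have hs0 : 0 < ‖c.s (u : K)‖ ^ k := zpow_pos (unit_pos c.s u) _
  have hbig : max R 1 < ‖c.e (u : K)‖ ^ k := by
    rw [← Real.log_lt_log_iff (lt_of_lt_of_le one_pos (le_max_right _ _)) he0, Real.log_zpow]
    exact hfar
  have hsize : ‖c.s (u : K)‖ ^ k = 1 / Real.sqrt (‖c.e (u : K)‖ ^ k) := by
    refine (Real.log_injOn_pos.eq_iff hs0 (by positivity : 0 < 1 / Real.sqrt _)).1 ?_
    have h := c.log_sum u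
    rw [htn] at h
    rw [one_div, Real.log_inv, Real.log_sqrt he0.le, Real.log_zpow, Real.log_zpow]
    linear_combination (k : ℝ) / 2 * h
  refine ⟨(le_max_left _ _).trans_lt hbig, hsize.le, hsize.le, ?_⟩
  rw [hc (u : K), ← map_zpow₀ (starRingEnd ℂ), ← map_mul, Complex.add_conj, Complex.norm_real,
    Real.norm_eq_abs]
  set y := (k : ℝ) * φ + j * Real.pi - (Real.pi / 2 - Complex.arg κ) with hy
  have hre : (κ * c.s (u : K) ^ k).re =
      ‖κ‖ * ‖c.s (u : K)‖ ^ k * Real.cos (k * φ + Complex.arg κ) := by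
    conv_lhs => rw [← Complex.norm_mul_exp_arg_mul_I κ,
      ← Complex.norm_mul_exp_arg_mul_I (c.s (u : K))]
    rw [mul_zpow, ← Complex.exp_int_mul, mul_mul_mul_comm, ← Complex.exp_add,
      ← Complex.ofReal_zpow, ← Complex.ofReal_mul, Complex.re_ofReal_mul,
      show (Complex.arg κ : ℂ) * Complex.I +
          (k : ℂ) * ((Complex.arg (c.s (u : K)) : ℂ) * Complex.I) =
        (((k : ℝ) * φ + Complex.arg κ : ℝ) : ℂ) * Complex.I by rw [hφ]; push_cast; ring,
      Complex.exp_ofReal_mul_I_re]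
  have hcos : |Real.cos (k * φ + Complex.arg κ)| ≤ |y| := by
    refine le_of_eq_of_le ?_ (Real.abs_sin_le_abs (x := y))
    rw [show y = ((k : ℝ) * φ + Complex.arg κ + j * Real.pi) - Real.pi / 2 by rw [hy]; ring,
      Real.sin_sub_pi_div_two, abs_neg, Real.cos_add_int_mul_pi, abs_mul, abs_neg_one_zpow,
      one_mul]
  rw [hre, hsize, abs_mul, abs_mul, abs_two, abs_of_nonneg (by positivity :
    (0 : ℝ) ≤ ‖κ‖ * (1 / Real.sqrt (‖c.e (u : K)‖ ^ k)))]
  calc 2 * (‖κ‖ * (1 / Real.sqrt (‖c.e (u : K)‖ ^ k)) * |Real.cos (k * φ + Complex.arg κ)|)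
      ≤ 2 * (‖κ‖ * (1 / Real.sqrt (‖c.e (u : K)‖ ^ k)) * (ε / (2 * ‖κ‖ + 1))) := by
        gcongr
        exact hcos.trans hstrip.le
    _ = 2 * ‖κ‖ / (2 * ‖κ‖ + 1) * (ε / Real.sqrt (‖c.e (u : K)‖ ^ k)) := by ring
    _ ≤ ε / Real.sqrt (‖c.e (u : K)‖ ^ k) := by
        refine mul_le_of_le_one_left (by positivity) ((div_le_one (by positivity)).2 ?_)
        linarith

/-- **The totally real case.** -/
theorem exists_small_real (hs : ∀ x, (starRingEnd ℂ) (c.s x) = c.s x)
    (ht : ∀ x, (starRingEnd ℂ) (c.t x) = c.t x) {κs κt : ℝ} {d : K} (hd : IsIntegral ℤ d)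
    (hd0 : d ≠ 0) (hsign : (κs * (c.s d).re) * (κt * (c.t d).re) < 0) :
    ∃ C : ℝ, ∀ ε : ℝ, 0 < ε → ∀ R : ℝ, ∃ x : K, IsIntegral ℤ x ∧ R < ‖c.e x‖ ∧
      ‖c.s x‖ ≤ C / Real.sqrt ‖c.e x‖ ∧ ‖c.t x‖ ≤ C / Real.sqrt ‖c.e x‖ ∧
      ‖(κs : ℂ) * c.s x + (κt : ℂ) * c.t x‖ ≤ ε / Real.sqrt ‖c.e x‖ := by
  have hreal : ∀ {φ ψ : K →+* ℂ}, (∀ x, (starRingEnd ℂ) (ψ x) = ψ x) → ψ ≠ φ →
      ComplexEmbedding.conjugate ψ ≠ φ := fun {φ ψ} h hne he =>
    hne (RingHom.ext fun x => by rw [← RingHom.congr_fun he x]; exact (h x).symm)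
  obtain ⟨u1, hu1⟩ := exists_unit_big (K := K) c.e
  obtain ⟨u2, hu2⟩ := exists_unit_big (K := K) c.s
  have hB1 := hu1 c.s c.es.symm (hreal hs c.es.symm)
  have hC1 := hu1 c.t c.et.symm (hreal ht c.et.symm)
  have hA2 := hu2 c.e c.es (hreal c.e_real c.es)
  have hC2 := hu2 c.t c.st.symm (hreal ht c.st.symm)
  have h1 := c.log_sum u1
  have h2 := c.log_sum u2
  set A1 := Real.log ‖c.e (u1 : K)‖
  set B1 := Real.log ‖c.s (u1 : K)‖
  set C1 := Real.log ‖c.t (u1 : K)‖
  set A2 := Real.log ‖c.e (u2 : K)‖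
  set B2 := Real.log ‖c.s (u2 : K)‖
  set C2 := Real.log ‖c.t (u2 : K)‖
  have hdet : A1 * (B2 - C2) - A2 * (B1 - C1) ≠ 0 := by
    have e : A1 * (B2 - C2) - A2 * (B1 - C1) = 2 * (A1 * B2 - A2 * B1) := by
      linear_combination -(A1 * h2) + A2 * h1
    have hpos : 0 < A1 * B2 - A2 * B1 := by
      have p1 : 0 < A1 := by linarith
      have p2 : -A2 < B2 := by linarith
      have p3 : -B1 < A1 := by linarith
      nlinarith
    linarith
  have hirr : Irrational ((B2 - C2) / (B1 - C1)) := by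
    rintro ⟨r, hr⟩
    obtain ⟨m, n, hmn0, hmn⟩ : ∃ m n : ℤ, (m ≠ 0 ∨ n ≠ 0) ∧
        (m : ℝ) * (B1 - C1) + n * (B2 - C2) = 0 := by
      rcases eq_or_ne (B1 - C1) 0 with h0 | h0
      · exact ⟨1, 0, Or.inl one_ne_zero, by simp [h0]⟩
      · refine ⟨-r.num, r.den, Or.inr (by exact_mod_cast r.den_nz), ?_⟩
        rw [Rat.cast_def, div_eq_div_iff (by exact_mod_cast r.den_nz) h0] at hr
        push_cast
        linarith
    set w : (𝓞 K)ˣ := u1 ^ m * u2 ^ n
    have hw : ‖c.s (w : K)‖ = ‖c.t (w : K)‖ := by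
      refine (Real.log_injOn_pos.eq_iff (unit_pos c.s w) (unit_pos c.t w)).1 ?_
      rw [log_norm_zpow, log_norm_zpow]
      linarith
    have hsq : ∀ {φ : K →+* ℂ}, (∀ x, (starRingEnd ℂ) (φ x) = φ x) →
        φ (w : K) ^ 2 = ((‖φ (w : K)‖ ^ 2 : ℝ) : ℂ) := fun {φ} h => by
      rw [Complex.ofReal_pow, ← Complex.mul_conj', h, sq]
    have hw2 := c.norm_unit_eq_one c.st (u := w ^ 2)
      (by rw [NumberField.Units.coe_pow, map_pow, map_pow, hsq hs, hsq ht, hw])
    have hone : ∀ φ : K →+* ℂ,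
        (m : ℝ) * Real.log ‖φ (u1 : K)‖ + n * Real.log ‖φ (u2 : K)‖ = 0 := fun φ => by
      rw [← log_norm_zpow]
      have h := hw2 φ
      rw [NumberField.Units.coe_pow, map_pow, norm_pow,
        pow_eq_one_iff_of_nonneg (norm_nonneg _) two_ne_zero] at h
      rw [h, Real.log_one]
    have hA := hone c.e
    have hB := hone c.s
    have hm : (m : ℝ) * (A1 * B2 - A2 * B1) = 0 := by linear_combination B2 * hA - A2 * hB
    have hn : (n : ℝ) * (A1 * B2 - A2 * B1) = 0 := by linear_combination A1 * hB - B1 * hA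
    have hne : A1 * B2 - A2 * B1 ≠ 0 := fun e => hdet (by
      linear_combination 2 * e - A1 * h2 + A2 * h1)
    rcases hmn0 with h | h
    · exact h (Int.cast_eq_zero.1 ((mul_eq_zero.1 hm).resolve_right hne))
    · exact h (Int.cast_eq_zero.1 ((mul_eq_zero.1 hn).resolve_right hne))
  set a := κs * (c.s d).re with ha
  set b := κt * (c.t d).re with hb
  set ρ := -b / a with hρ
  have ha0 : a ≠ 0 := fun e => by rw [e, zero_mul] at hsign; exact lt_irrefl _ hsign
  have hρ0 : 0 < ρ := by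
    rw [hρ, neg_div, neg_pos, div_eq_mul_inv,
      show b * a⁻¹ = a * b * (a⁻¹) ^ 2 by field_simp]
    exact mul_neg_of_neg_of_pos hsign (by positivity)
  set T := Real.log ρ / 2 with hT
  set Md := Real.sqrt ‖c.e d‖ * (‖c.s d‖ + ‖c.t d‖) with hMd
  refine ⟨Md * Real.exp (|T| + 1), fun ε hε R => ?_⟩
  set G := Real.sqrt ‖c.e d‖ * |b| * Real.exp (|T| + 1) * 4 with hG
  have hed : 0 < ‖c.e d‖ := norm_pos_iff.2 (by simpa using hd0)
  have hη : 0 < min (1 / 2) (ε / (G + 1)) := lt_min (by norm_num) (by positivity)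
  obtain ⟨m, n, hstrip, hfar⟩ := exists_far_in_strip hdet hirr T hη
    (Real.log (max (R / ‖c.e d‖) 1) / 2)
  set w : (𝓞 K)ˣ := u1 ^ m * u2 ^ n
  refine ⟨d * (w : K) ^ 2, hd.mul ((RingOfIntegers.isIntegral_coe _).pow 2), ?_⟩
  set E := ‖c.e (w : K)‖
  set P := ‖c.s (w : K)‖
  set Q := ‖c.t (w : K)‖
  have hE : Real.log E = m * A1 + n * A2 := log_norm_zpow _ _ _ _ _
  have hl : Real.log P - Real.log Q = m * (B1 - C1) + n * (B2 - C2) := by
    rw [log_norm_zpow, log_norm_zpow]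
    ring
  have hE0 : 0 < E := unit_pos _ _
  have hP0 : 0 < P := unit_pos _ _
  have hQ0 : 0 < Q := unit_pos _ _
  set l := Real.log P - Real.log Q with hldef
  clear_value l
  rw [← hl] at hstrip
  rw [← hE] at hfar
  have hlT : |l - T| < 1 / 2 ∧ |l - T| < ε / (G + 1) := lt_min_iff.1 hstrip
  have hex : Real.exp |l| ≤ Real.exp (|T| + 1) := Real.exp_le_exp.2 (by
    linarith [abs_sub_abs_le_abs_sub l T])
  have hPQ : P * Q = 1 / E := by
    rw [eq_div_iff hE0.ne']
    linear_combination c.norm_mul_unit w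
  have hP2 : P ^ 2 = Real.exp l / E := by
    rw [hldef, Real.exp_sub, Real.exp_log hP0, Real.exp_log hQ0, div_div,
      eq_div_iff (by positivity)]
    linear_combination P * c.norm_mul_unit w
  have hQ2 : Q ^ 2 = Real.exp (-l) / E := by
    rw [hldef, neg_sub, Real.exp_sub, Real.exp_log hP0, Real.exp_log hQ0, div_div,
      eq_div_iff (by positivity)]
    linear_combination Q * c.norm_mul_unit w
  have hsqrt : Real.sqrt ‖c.e (d * (w : K) ^ 2)‖ = Real.sqrt ‖c.e d‖ * E := by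
    rw [map_mul, map_pow, norm_mul, norm_pow, Real.sqrt_mul (norm_nonneg _),
      Real.sqrt_sq hE0.le]
  refine ⟨?_, ?_, ?_, ?_⟩
  · rw [map_mul, map_pow, norm_mul, norm_pow, mul_comm, ← div_lt_iff₀ hed]
    refine (le_max_left _ 1).trans_lt ?_
    rw [← Real.log_lt_log_iff (lt_of_lt_of_le one_pos (le_max_right _ _)) (by positivity),
      Real.log_pow]
    push_cast
    linarith
  · rw [hsqrt, map_mul, map_pow, norm_mul, norm_pow, hP2, le_div_iff₀ (by positivity)]
    calc ‖c.s d‖ * (Real.exp l / E) * (Real.sqrt ‖c.e d‖ * E)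
        = Real.sqrt ‖c.e d‖ * ‖c.s d‖ * Real.exp l := by field_simp
      _ ≤ Md * Real.exp (|T| + 1) := by
          refine mul_le_mul ?_ ((Real.exp_le_exp.2 (le_abs_self l)).trans hex) (Real.exp_pos _).le
            (by positivity)
          exact mul_le_mul_of_nonneg_left (le_add_of_nonneg_right (norm_nonneg _))
            (Real.sqrt_nonneg _)
  · rw [hsqrt, map_mul, map_pow, norm_mul, norm_pow, hQ2, le_div_iff₀ (by positivity)]
    calc ‖c.t d‖ * (Real.exp (-l) / E) * (Real.sqrt ‖c.e d‖ * E)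
        = Real.sqrt ‖c.e d‖ * ‖c.t d‖ * Real.exp (-l) := by field_simp
      _ ≤ Md * Real.exp (|T| + 1) := by
          refine mul_le_mul ?_ ((Real.exp_le_exp.2 (neg_le_abs l)).trans hex) (Real.exp_pos _).le
            (by positivity)
          exact mul_le_mul_of_nonneg_left (le_add_of_nonneg_left (norm_nonneg _))
            (Real.sqrt_nonneg _)
  · have key : ∀ {φ : K →+* ℂ}, (∀ x, (starRingEnd ℂ) (φ x) = φ x) →
        φ (d * (w : K) ^ 2) = (((φ d).re * ‖φ (w : K)‖ ^ 2 : ℝ) : ℂ) := fun {φ} h => by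
      rw [map_mul, map_pow, Complex.ofReal_mul, Complex.conj_eq_iff_re.1 (h d),
        Complex.ofReal_pow, ← Complex.mul_conj', h, sq]
    rw [key hs, key ht, ← Complex.ofReal_mul, ← Complex.ofReal_mul, ← Complex.ofReal_add,
      Complex.norm_real, Real.norm_eq_abs, ← mul_assoc, ← mul_assoc, ← ha, ← hb, hsqrt,
      show ‖c.s (w : K)‖ ^ 2 = _ from hP2, show ‖c.t (w : K)‖ ^ 2 = _ from hQ2,
      le_div_iff₀ (by positivity)]
    have e : a * (Real.exp l / E) + b * (Real.exp (-l) / E) =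
        -b * Real.exp (-l) * (Real.exp (2 * (l - T)) - 1) / E := by
      rw [show 2 * (l - T) = l + l - Real.log ρ by rw [hT]; ring, Real.exp_sub,
        Real.exp_add, Real.exp_log hρ0, hρ, Real.exp_neg]
      have hb0 : b ≠ 0 := fun e => by rw [e, mul_zero] at hsign; exact lt_irrefl _ hsign
      field_simp
      ring
    rw [e, abs_div, abs_mul, abs_mul, abs_neg, Real.abs_exp, abs_of_pos hE0]
    have hd2 : |2 * (l - T)| = 2 * |l - T| := by rw [abs_mul, abs_two]
    have hlin : |Real.exp (2 * (l - T)) - 1| ≤ 4 * |l - T| := by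
      refine (Real.abs_exp_sub_one_le (by rw [hd2]; linarith [hlT.1])).trans_eq ?_
      rw [hd2]
      ring
    calc |b| * Real.exp (-l) * |Real.exp (2 * (l - T)) - 1| / E * (Real.sqrt ‖c.e d‖ * E)
        = Real.sqrt ‖c.e d‖ * |b| * Real.exp (-l) * |Real.exp (2 * (l - T)) - 1| := by field_simp
      _ ≤ Real.sqrt ‖c.e d‖ * |b| * Real.exp (|T| + 1) * (4 * (ε / (G + 1))) := by
          refine mul_le_mul (mul_le_mul_of_nonneg_left
            ((Real.exp_le_exp.2 (neg_le_abs l)).trans hex) (by positivity))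
            (hlin.trans (by linarith [hlT.2])) (abs_nonneg _) (by positivity)
      _ = G / (G + 1) * ε := by rw [hG]; ring
      _ ≤ ε := mul_le_of_le_one_left hε.le ((div_le_one (by positivity)).2 (by linarith))

end Conjugates

end FA.LittlewoodCubic
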