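import Fermat.Agent.LittlewoodCubic.Field
import Mathlib.RingTheory.DedekindDomain.IntegralClosure
import Mathlib.Algebra.Order.Round

/-!
# Littlewood's conjecture for two numbers of a cubic field
-/

set_option autoImplicit false

noncomputable section

open NumberField

namespace FA.LittlewoodCubic

theorem dist_round_le (q p : ℤ) (θ : ℝ) :
    |(q.natAbs : ℝ) * θ - round ((q.natAbs : ℝ) * θ)| ≤ |(q : ℝ) * θ - p| := by
  rw [Nat.cast_natAbs, Int.cast_abs]
  rcases abs_choice (q : ℝ) with h | h <;> rw [h]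
  · exact round_le _ p
  · refine (round_le _ (-p)).trans_eq ?_
    rw [Int.cast_neg, ← abs_neg]
    congr 1
    ring

variable {K : Type} [Field K] [NumberField K]

/-- Integers with small conjugates annihilating `κ = e a - σ a`. -/
theorem exists_small (c : Conjugates K) {a : K} (ha : IsIntegral ℤ a)
    (hirr : ∀ r : ℚ, a ≠ r) :
    ∃ C : ℝ, 0 ≤ C ∧ ∀ ε : ℝ, 0 < ε → ∀ R : ℝ, ∃ x : K, IsIntegral ℤ x ∧ R < ‖c.e x‖ ∧
      ‖c.s x‖ ≤ C / Real.sqrt ‖c.e x‖ ∧ ‖c.t x‖ ≤ C / Real.sqrt ‖c.e x‖ ∧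
      ‖(c.e a - c.s a) * c.s x + (c.e a - c.t a) * c.t x‖ ≤ ε / Real.sqrt ‖c.e x‖ := by
  rcases c.conj_cases with ⟨hs, ht⟩ | hc
  · have hre : ∀ {φ : K →+* ℂ}, (∀ x, (starRingEnd ℂ) (φ x) = φ x) → ∀ x,
        φ x = (((φ x).re : ℝ) : ℂ) := fun {φ} h x => (Complex.conj_eq_iff_re.1 (h x)).symm
    set κs := (c.e a).re - (c.s a).re with hκs
    set κt := (c.e a).re - (c.t a).re with hκt
    have eκs : c.e a - c.s a = (κs : ℂ) := by
      rw [hκs, Complex.ofReal_sub, ← hre c.e_real, ← hre hs]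
    have eκt : c.e a - c.t a = (κt : ℂ) := by
      rw [hκt, Complex.ofReal_sub, ← hre c.e_real, ← hre ht]
    have hne : ∀ {σ τ : K →+* ℂ}, σ ≠ τ → σ a ≠ τ a := fun h e => by
      obtain ⟨r, hr⟩ := c.rat_of_eq h e
      exact hirr r hr
    have hκs0 : κs ≠ 0 := fun e => sub_ne_zero.2 (hne c.es) (by rw [eκs, e, Complex.ofReal_zero])
    have hκt0 : κt ≠ 0 := fun e => sub_ne_zero.2 (hne c.et) (by rw [eκt, e, Complex.ofReal_zero])
    obtain ⟨d, hd, hsign⟩ : ∃ d : K, IsIntegral ℤ d ∧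
        (κs * (c.s d).re) * (κt * (c.t d).re) < 0 := by
      rcases lt_or_gt_of_ne (mul_ne_zero hκs0 hκt0) with h | h
      · exact ⟨1, isIntegral_one, by simpa using h⟩
      -- otherwise some `M a - N` has conjugates of opposite signs
      set u := (c.s a).re
      set v := (c.t a).re
      have huv : 0 < |u - v| := abs_pos.2 (sub_ne_zero.2 fun e => hne c.st (by
        rw [hre hs, hre ht]; exact congrArg _ e))
      obtain ⟨M, hM⟩ := exists_nat_gt (1 / |u - v|)
      rw [div_lt_iff₀ huv] at hM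
      set N := ⌊min ((M : ℝ) * u) (M * v)⌋ + 1 with hN
      have h1 : min ((M : ℝ) * u) (M * v) < N := by
        rw [hN]; push_cast; exact Int.lt_floor_add_one _
      have h2 : (N : ℝ) ≤ min ((M : ℝ) * u) (M * v) + 1 := by
        rw [hN]; push_cast; linarith [Int.floor_le (min ((M : ℝ) * u) (M * v))]
      have h3 : ((M : ℝ) * u - N) * (M * v - N) < 0 := by
        rcases le_total u v with huv' | huv'
        · rw [abs_sub_comm, abs_of_nonneg (sub_nonneg.2 huv')] at hM
          rw [min_eq_left (mul_le_mul_of_nonneg_left huv' M.cast_nonneg)] at h1 h2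
          exact mul_neg_of_neg_of_pos (by linarith) (by linarith)
        · rw [abs_of_nonneg (sub_nonneg.2 huv')] at hM
          rw [min_eq_right (mul_le_mul_of_nonneg_left huv' M.cast_nonneg)] at h1 h2
          exact mul_neg_of_pos_of_neg (by linarith) (by linarith)
      have hMi : IsIntegral ℤ (M : K) := by
        simpa using isIntegral_algebraMap (R := ℤ) (A := K) (x := (M : ℤ))
      have hNi : IsIntegral ℤ (N : K) := by
        simpa using isIntegral_algebraMap (R := ℤ) (A := K) (x := N)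
      refine ⟨(M : K) * a - (N : K), (hMi.mul ha).sub hNi, ?_⟩
      simp only [map_sub, map_mul, map_natCast, map_intCast, Complex.sub_re, Complex.intCast_re,
        Complex.mul_re, Complex.natCast_re, Complex.natCast_im, zero_mul, sub_zero]
      rw [mul_mul_mul_comm]
      exact mul_neg_of_pos_of_neg h h3
    have hd0 : d ≠ 0 := fun e => by simp [e] at hsign
    obtain ⟨C, hC⟩ := c.exists_small_real hs ht hd hd0 hsign
    refine ⟨|C|, abs_nonneg C, fun ε hε R => ?_⟩
    obtain ⟨x, hx, h1, h2, h3, h4⟩ := hC ε hε R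
    exact ⟨x, hx, h1, h2.trans (by gcongr; exact le_abs_self C),
      h3.trans (by gcongr; exact le_abs_self C), by rwa [eκs, eκt]⟩
  · refine ⟨1, zero_le_one, fun ε hε R => ?_⟩
    obtain ⟨x, hx, h1, h2, h3, h4⟩ := c.exists_small_complex hc (c.e a - c.s a) hε R
    refine ⟨x, hx, h1, h2, h3, le_of_eq_of_le ?_ h4⟩
    rw [map_sub, c.e_real, ← hc a]

theorem exists_trace_int {x : K} (hx : IsIntegral ℤ x) :
    ∃ T : ℤ, Algebra.trace ℚ K x = (T : ℚ) := by
  obtain ⟨T, hT⟩ := (IsIntegrallyClosed.isIntegral_iff).1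
    (Algebra.isIntegral_trace (L := ℚ) hx)
  exact ⟨T, by rw [← hT]; simp⟩

/-- **Cassels and Swinnerton-Dyer.** -/
theorem littlewood_pair (hdeg : Module.finrank ℚ K = 3) (ι : K →+* ℝ) (a b : K) {ε : ℝ}
    (hε : 0 < ε) (N : ℕ) : ∃ n : ℕ, N ≤ n ∧
      (n : ℝ) * |(n : ℝ) * ι a - round ((n : ℝ) * ι a)| *
        |(n : ℝ) * ι b - round ((n : ℝ) * ι b)| < ε := by
  by_cases hrat : ∃ r : ℚ, a = r
  · obtain ⟨r, rfl⟩ := hrat
    refine ⟨r.den * N, Nat.le_mul_of_pos_left N r.pos, ?_⟩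
    have h : ((r.den * N : ℕ) : ℝ) * ι (r : K) = ((r.num * N : ℤ) : ℝ) := by
      rw [map_ratCast]
      conv_lhs => rw [Rat.cast_def]
      push_cast
      field_simp
    rw [h, round_intCast, sub_self, abs_zero, mul_zero, zero_mul]
    exact hε
  push Not at hrat
  obtain ⟨c, hc⟩ := exists_conjugates hdeg (Complex.ofRealHom.comp ι)
    fun x => Complex.conj_ofReal _
  classical
  obtain ⟨D, hD, hint⟩ := exists_integral_multiples ℤ ℚ ({a, b} : Finset K)
  have hDa : IsIntegral ℤ ((D : K) * a) := by simpa [zsmul_eq_mul] using hint a (by simp)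
  have hDb : IsIntegral ℤ ((D : K) * b) := by simpa [zsmul_eq_mul] using hint b (by simp)
  have hirr : ∀ r : ℚ, (D : K) * a ≠ r := fun r e => hrat (r / D) (by
    rw [Rat.cast_div, Rat.cast_intCast, eq_div_iff (Int.cast_ne_zero.2 hD), mul_comm, e])
  obtain ⟨C, hC, hsmall⟩ := exists_small c hDa hirr
  set Λ := ‖c.e ((D : K) * b) - c.s ((D : K) * b)‖ + ‖c.e ((D : K) * b) - c.t ((D : K) * b)‖
  have hΛ : 0 ≤ Λ := by positivity
  have hD1 : (1 : ℝ) ≤ |(D : ℝ)| := by exact_mod_cast Int.one_le_abs hD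
  set δ := ε / (2 * |(D : ℝ)| * Λ * C + 1) with hδ
  obtain ⟨x, hx, hR, hs, ht, hlin⟩ := hsmall δ (by positivity) (N + 2 * C + 1)
  obtain ⟨T, hT⟩ := exists_trace_int hx
  obtain ⟨U, hU⟩ := exists_trace_int (hDa.mul hx)
  obtain ⟨V, hV⟩ := exists_trace_int (hDb.mul hx)
  set X := ‖c.e x‖
  have hX1 : 1 ≤ X := by linarith [N.cast_nonneg (α := ℝ)]
  have hsX : 0 < Real.sqrt X := Real.sqrt_pos.2 (by linarith)
  have hsX1 : 1 ≤ Real.sqrt X := Real.one_le_sqrt.2 hX1
  have key : ∀ (y : K) (W : ℤ), Algebra.trace ℚ K ((D : K) * y * x) = (W : ℚ) →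
      |((D * T : ℤ) : ℝ) * ι y - W| = ‖(c.e ((D : K) * y) - c.s ((D : K) * y)) * c.s x +
        (c.e ((D : K) * y) - c.t ((D : K) * y)) * c.t x‖ := fun y W hW => by
    rw [← Real.norm_eq_abs, ← Complex.norm_real]
    congr 1
    have e1 := c.trace_eq x
    have e2 := c.trace_eq ((D : K) * y * x)
    rw [hT, Rat.cast_intCast] at e1
    rw [hW, Rat.cast_intCast, map_mul c.e ((D : K) * y) x, map_mul c.s ((D : K) * y) x,
      map_mul c.t ((D : K) * y) x] at e2
    have ey : c.e ((D : K) * y) = (D : ℂ) * ((ι y : ℝ) : ℂ) := by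
      rw [hc, map_mul, map_intCast]; rfl
    rw [Complex.ofReal_sub, Complex.ofReal_mul, Complex.ofReal_intCast, Complex.ofReal_intCast,
      Int.cast_mul, e1, e2]
    linear_combination (-(c.e x + c.s x + c.t x)) * ey
  have hTX : |(T : ℝ)| ≤ X + 2 * C ∧ X - 2 * C ≤ |(T : ℝ)| := by
    have e1 := c.trace_eq x
    rw [hT, Rat.cast_intCast] at e1
    have hst : ‖c.s x + c.t x‖ ≤ 2 * C := by
      refine (norm_add_le _ _).trans ((add_le_add (hs.trans (div_le_self hC hsX1))
        (ht.trans (div_le_self hC hsX1))).trans_eq (two_mul C).symm)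
    rw [← Complex.norm_intCast, e1, add_assoc]
    exact ⟨(norm_add_le _ _).trans (by linarith), by
      linarith [norm_le_add_norm_add (c.e x) (c.s x + c.t x)]⟩
  refine ⟨(D * T).natAbs, ?_, ?_⟩
  · have h : (N : ℝ) ≤ ((D * T).natAbs : ℝ) := by
      rw [Nat.cast_natAbs, Int.cast_abs, Int.cast_mul, abs_mul]
      calc (N : ℝ) ≤ |(T : ℝ)| := by linarith [hTX.2]
        _ ≤ |(D : ℝ)| * |(T : ℝ)| := le_mul_of_one_le_left (abs_nonneg _) hD1
    exact_mod_cast h
  · have hb : |((D * T : ℤ) : ℝ) * ι b - V| ≤ Λ * C / Real.sqrt X := by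
      rw [key b V hV, mul_div_assoc, add_mul]
      refine (norm_add_le _ _).trans ?_
      rw [norm_mul, norm_mul]
      gcongr
    have hn : ((D * T).natAbs : ℝ) ≤ 2 * |(D : ℝ)| * X := by
      rw [Nat.cast_natAbs, Int.cast_abs, Int.cast_mul, abs_mul]
      nlinarith [mul_le_mul_of_nonneg_left hTX.1 (abs_nonneg (D : ℝ))]
    have hea : |((D * T : ℤ) : ℝ) * ι a - U| ≤ δ / Real.sqrt X := (key a U hU).trans_le hlin
    calc ((D * T).natAbs : ℝ) * _ * _
        ≤ 2 * |(D : ℝ)| * X * (δ / Real.sqrt X) * (Λ * C / Real.sqrt X) := by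
          refine mul_le_mul (mul_le_mul hn ((dist_round_le _ U _).trans hea) (abs_nonneg _)
            (by positivity)) ((dist_round_le _ V _).trans hb) (abs_nonneg _) (by positivity)
      _ = 2 * |(D : ℝ)| * Λ * C / (2 * |(D : ℝ)| * Λ * C + 1) * ε := by
          rw [hδ]
          field_simp
          rw [Real.sq_sqrt (by linarith : (0 : ℝ) ≤ X)]
          ring
      _ < ε := mul_lt_of_lt_one_left hε ((div_lt_one (by positivity)).2 (by linarith))

end FA.LittlewoodCubic
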