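import Mathlib.NumberTheory.Pell
import Mathlib.NumberTheory.Zsqrtd.Basic
import Mathlib.NumberTheory.Basic
import Mathlib.NumberTheory.Padics.PadicNorm
import Mathlib.Analysis.SpecialFunctions.Log.Basic
import Mathlib.Algebra.Order.Round
import Mathlib.Tactic

/-!
# The mixed Littlewood conjecture for quadratic irrationals

Pell powers congruent to one modulo `p ^ (j + 1)` occur with exponent `≪ p ^ j`.
-/

set_option autoImplicit false

noncomputable section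

namespace FA.LittlewoodCubic

/-- Some positive power of a norm one element is one modulo `p`. -/
theorem exists_pow_one_mod {d : ℤ} {z : ℤ√d} (hz : z * star z = 1) {p : ℕ} (hp : 0 < p) :
    ∃ k : ℕ, 1 ≤ k ∧ (p : ℤ√d) ∣ z ^ k - 1 := by
  have hp0 : (p : ℤ) ≠ 0 := by omega
  have : NeZero p := ⟨hp.ne'⟩
  obtain ⟨i, j, hne, he⟩ := Finite.exists_ne_map_eq_of_infinite
    (fun n : ℕ => (((z ^ n).re : ZMod p), ((z ^ n).im : ZMod p)))
  obtain ⟨h1, h2⟩ := Prod.mk.inj he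
  have key : ∀ {i j : ℕ}, i < j → ((z ^ i).re : ZMod p) = (z ^ j).re →
      ((z ^ i).im : ZMod p) = (z ^ j).im → ∃ k : ℕ, 1 ≤ k ∧ (p : ℤ√d) ∣ z ^ k - 1 := by
    intro i j hij h1 h2
    refine ⟨j - i, by omega, ?_⟩
    have h : (p : ℤ√d) ∣ z ^ j - z ^ i := by
      rw [← Int.cast_natCast, Zsqrtd.intCast_dvd, Zsqrtd.re_sub, Zsqrtd.im_sub,
        ← ZMod.intCast_zmod_eq_zero_iff_dvd, ← ZMod.intCast_zmod_eq_zero_iff_dvd,
        Int.cast_sub, Int.cast_sub, h1, h2]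
      simp
    have e : z ^ (j - i) - 1 = star z ^ i * (z ^ j - z ^ i) := by
      obtain ⟨m, rfl⟩ := Nat.exists_eq_add_of_le hij.le
      have h' : star z ^ i * z ^ i = 1 := by rw [← mul_pow, mul_comm, hz, one_pow]
      rw [Nat.add_sub_cancel_left, pow_add]
      linear_combination -(z ^ m - 1) * h'
    rw [e]
    exact dvd_mul_of_dvd_right h _
  rcases lt_or_gt_of_ne hne with h | h
  · exact key h h1 h2
  · exact key h h1.symm h2.symm

/-- **de Mathan and Teulié**, in coordinates. -/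
theorem exists_mixed_small {p : ℕ} (hp : p.Prime) {x : ℝ} (hx : Irrational x) {A B C0 : ℤ}
    (hA : A ≠ 0) (hroot : (A : ℝ) * x ^ 2 + B * x + C0 = 0) :
    ∃ C : ℝ, ∀ N : ℕ, ∃ q : ℕ, N ≤ q ∧
      (q : ℝ) * (padicNorm p q : ℝ) * |(q : ℝ) * x - round ((q : ℝ) * x)| * Real.log q ≤ C := by
  set s := 2 * (A : ℝ) * x + B with hs
  set D := B ^ 2 - 4 * A * C0 with hD
  have hsD : s * s = (D : ℝ) := by
    rw [hs, hD]
    push_cast
    linear_combination 4 * (A : ℝ) * hroot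
  have hsirr : Irrational s := by
    have h := (hx.intCast_mul (show 2 * A ≠ 0 by omega)).add_intCast B
    push_cast at h
    exact h
  have hDpos : 0 < D := by
    have : (0 : ℝ) < D := by
      rw [← hsD]
      exact mul_self_pos.2 hsirr.ne_zero
    exact_mod_cast this
  have hDsq : ¬IsSquare D := fun ⟨m, hm⟩ => by
    rw [hm, Int.cast_mul] at hsD
    rcases mul_self_eq_mul_self_iff.1 hsD with h | h
    · exact hsirr.ne_int m h
    · exact hsirr.ne_int (-m) (by rw [h, Int.cast_neg])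
  set σ := |s| with hσ
  have hσ0 : 0 < σ := abs_pos.2 hsirr.ne_zero
  have hσD : σ * σ = (D : ℝ) := by rw [hσ, abs_mul_abs_self, hsD]
  obtain ⟨X1, Y1, hXY, hY1⟩ := Pell.exists_of_not_isSquare hDpos hDsq
  set z : ℤ√D := ⟨|X1|, |Y1|⟩ with hz
  have hzz : z * star z = 1 := by
    ext
    · simp only [hz, Zsqrtd.re_mul, Zsqrtd.re_star, Zsqrtd.im_star, Zsqrtd.re_one]
      linear_combination hXY + sq_abs X1 - D * sq_abs Y1
    · simp only [hz, Zsqrtd.im_mul, Zsqrtd.re_star, Zsqrtd.im_star, Zsqrtd.im_one]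
      ring
  let φ : ℤ√D →+* ℝ := Zsqrtd.lift ⟨σ, hσD⟩
  let ψ : ℤ√D →+* ℝ := Zsqrtd.lift ⟨-σ, by rw [neg_mul_neg, hσD]⟩
  have hφ : ∀ w : ℤ√D, φ w = (w.re : ℝ) + w.im * σ := fun w => Zsqrtd.lift_apply_apply _ _
  have hψ : ∀ w : ℤ√D, ψ w = (w.re : ℝ) + w.im * (-σ) := fun w => Zsqrtd.lift_apply_apply _ _
  set u := φ z with hu
  have huv : u * ψ z = 1 := by
    have h := congrArg φ hzz
    rw [map_mul, map_one] at h
    rw [hu, show ψ z = φ (star z) by rw [hψ, hφ, Zsqrtd.re_star, Zsqrtd.im_star]; push_cast; ring]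
    exact h
  have hu1 : 1 < u := by
    have hY : (1 : ℝ) ≤ |(Y1 : ℝ)| := by exact_mod_cast Int.one_le_abs hY1
    have hX : (1 : ℝ) ≤ |(X1 : ℝ)| := by
      refine mod_cast Int.one_le_abs fun h0 => ?_
      rw [h0] at hXY
      nlinarith [sq_nonneg Y1]
    rw [hu, hφ]
    simp only [hz, Int.cast_abs]
    nlinarith
  obtain ⟨k0, hk0, hk0p⟩ := exists_pow_one_mod hzz hp.pos
  refine ⟨2 * |(A : ℝ)| / σ * (|Real.log (2 * |(A : ℝ)| / σ)| + k0 * Real.log u), fun N => ?_⟩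
  obtain ⟨j, hj⟩ : ∃ j : ℕ, N ≤ p ^ j := ⟨N, (Nat.lt_pow_self hp.one_lt).le⟩
  set k := k0 * p ^ j with hk
  have hdvd : ((p : ℤ√D)) ^ (j + 1) ∣ z ^ k - 1 := by
    have h := dvd_sub_pow_of_dvd_sub hk0p j
    rwa [one_pow, ← pow_mul, ← hk] at h
  set W := z ^ k with hW
  have hWim : ((p ^ (j + 1) : ℕ) : ℤ) ∣ W.im := by
    rw [← Nat.cast_pow, ← Int.cast_natCast, Zsqrtd.intCast_dvd, Zsqrtd.re_sub, Zsqrtd.im_sub,
      Zsqrtd.im_one, sub_zero] at hdvd
    exact hdvd.2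
  have hk1 : 1 ≤ k := Nat.mul_pos hk0 (pow_pos hp.pos _)
  have e1 : (W.re : ℝ) + W.im * σ = u ^ k := by rw [← hφ, hW, map_pow]
  have e2 : (W.re : ℝ) - W.im * σ = (u ^ k)⁻¹ := by
    rw [show (W.re : ℝ) - W.im * σ = ψ W by rw [hψ]; ring, hW, map_pow, ← inv_pow]
    congr 1
    rw [eq_inv_of_mul_eq_one_right huv]
  have huk : 1 < u ^ k := one_lt_pow₀ hu1 (by omega)
  have hinv : (u ^ k)⁻¹ < 1 := inv_lt_one_of_one_lt₀ huk
  have hY0 : (0 : ℝ) < W.im := by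
    by_contra! h
    nlinarith
  have hYle : (W.im : ℝ) * σ ≤ u ^ k := by
    have : 0 ≤ (u ^ k)⁻¹ := by positivity
    nlinarith
  set q := (2 * A * W.im).natAbs with hq
  have hWim0 : W.im ≠ 0 := fun h => by simp [h] at hY0
  have hqpos : 0 < q := Int.natAbs_pos.2 (mul_ne_zero (mul_ne_zero two_ne_zero hA) hWim0)
  have hdq : p ^ (j + 1) ∣ q := Int.natCast_dvd.1 (Dvd.dvd.mul_left hWim _)
  refine ⟨q, le_trans (hj.trans (Nat.pow_le_pow_right hp.pos (Nat.le_succ j)))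
    (Nat.le_of_dvd hqpos hdq), ?_⟩
  have hqR : (q : ℝ) = 2 * |(A : ℝ)| * W.im := by
    rw [hq, Nat.cast_natAbs, Int.cast_abs, Int.cast_mul, Int.cast_mul, abs_mul, abs_mul,
      abs_of_pos hY0]
    norm_num
  have hnear : |(q : ℝ) * x - round ((q : ℝ) * x)| ≤ (u ^ k)⁻¹ := by
    obtain ⟨ν, τ, hν, hτ, hνA, hτs⟩ : ∃ ν τ : ℤ, |(ν : ℝ)| = 1 ∧ |(τ : ℝ)| = 1 ∧
        |(A : ℝ)| = ν * A ∧ s = τ * σ := by
      rcases abs_choice (A : ℝ) with hAs | hAs <;> rcases abs_choice s with hss | hss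
      · exact ⟨1, 1, by simp, by simp, by simp [hAs], by simp [hσ, hss]⟩
      · exact ⟨1, -1, by simp, by simp, by simp [hAs], by simp [hσ, hss]⟩
      · exact ⟨-1, 1, by simp, by simp, by simp [hAs], by simp [hσ, hss]⟩
      · exact ⟨-1, -1, by simp, by simp, by simp [hAs], by simp [hσ, hss]⟩
    obtain ⟨P, hP⟩ : ∃ P : ℤ, |(q : ℝ) * x - P| = (u ^ k)⁻¹ := by
      refine ⟨ν * (τ * W.re - B * W.im), ?_⟩
      have hW' : (2 * (A : ℝ) * x + B) = τ * σ := hs ▸ hτs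
      rw [hqR, hνA, show 2 * ((ν : ℝ) * A) * W.im * x - ((ν * (τ * W.re - B * W.im) : ℤ) : ℝ) =
        -((ν : ℝ) * τ) * ((W.re : ℝ) - W.im * σ) by
          push_cast; linear_combination (ν : ℝ) * (W.im : ℝ) * hW', abs_mul, abs_neg, abs_mul,
        hν, hτ, e2, one_mul, one_mul, abs_of_nonneg (by positivity)]
    exact (round_le _ P).trans hP.le
  have hnorm : (padicNorm p q : ℝ) ≤ 1 / (p : ℝ) ^ (j + 1) := by
    have h := (padicNorm.dvd_iff_norm_le (p := p) (hp := ⟨hp⟩) (n := j + 1) (z := (q : ℤ))).1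
      (Int.natCast_dvd_natCast.2 hdq)
    have h' : (padicNorm p q : ℝ) ≤ (((p : ℚ) ^ (-((j + 1 : ℕ) : ℤ)) : ℚ) : ℝ) := by
      exact_mod_cast h
    rw [zpow_neg, zpow_natCast] at h'
    push_cast at h'
    rwa [one_div]
  have hn0 : (0 : ℝ) ≤ padicNorm p q := by exact_mod_cast padicNorm.nonneg _
  have hq1 : (1 : ℝ) ≤ q := by exact_mod_cast hqpos
  have hA0 : 0 < |(A : ℝ)| := abs_pos.2 (Int.cast_ne_zero.2 hA)
  have hqu : (q : ℝ) ≤ 2 * |(A : ℝ)| / σ * u ^ k := by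
    rw [hqR, div_mul_eq_mul_div, le_div_iff₀ hσ0, mul_assoc]
    exact mul_le_mul_of_nonneg_left hYle (by positivity)
  have hlog : Real.log q ≤ |Real.log (2 * |(A : ℝ)| / σ)| * (p : ℝ) ^ (j + 1) +
      k0 * Real.log u * (p : ℝ) ^ (j + 1) := by
    refine (Real.log_le_log (by linarith) hqu).trans ?_
    rw [Real.log_mul (by positivity) (by positivity), Real.log_pow]
    have hpj : (p : ℝ) ^ j ≤ (p : ℝ) ^ (j + 1) :=
      pow_le_pow_right₀ (by exact_mod_cast hp.one_lt.le) (Nat.le_succ j)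
    refine add_le_add ((le_abs_self _).trans (le_mul_of_one_le_right (abs_nonneg _)
      (one_le_pow₀ (by exact_mod_cast hp.one_lt.le)))) ?_
    rw [hk, Nat.cast_mul, Nat.cast_pow, mul_right_comm (k0 : ℝ) (Real.log u)]
    exact mul_le_mul_of_nonneg_right (mul_le_mul_of_nonneg_left hpj k0.cast_nonneg)
      (Real.log_nonneg hu1.le)
  calc (q : ℝ) * (padicNorm p q : ℝ) * |(q : ℝ) * x - round ((q : ℝ) * x)| * Real.log q
      ≤ (2 * |(A : ℝ)| / σ * u ^ k) * (1 / (p : ℝ) ^ (j + 1)) * (u ^ k)⁻¹ *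
          (|Real.log (2 * |(A : ℝ)| / σ)| * (p : ℝ) ^ (j + 1) +
            k0 * Real.log u * (p : ℝ) ^ (j + 1)) := by
        refine mul_le_mul (mul_le_mul (mul_le_mul hqu hnorm hn0 (by positivity)) hnear
          (abs_nonneg _) (by positivity)) hlog (Real.log_nonneg hq1) (by positivity)
    _ = _ := by
        have : (p : ℝ) ≠ 0 := by exact_mod_cast hp.ne_zero
        field_simp

end FA.LittlewoodCubic
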