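import Mathlib.Topology.Instances.AddCircle.DenseSubgroup
import Mathlib.Tactic

/-!
# Lattice points far out in a thin strip
-/

set_option autoImplicit false

noncomputable section

namespace FA.LittlewoodCubic

theorem exists_combination {a1 a2 t η : ℝ} (h : Irrational (a2 / a1)) (hη : 0 < η) :
    ∃ m n : ℤ, |(m : ℝ) * a1 + n * a2 - t| < η ∧ (m : ℝ) * a1 + n * a2 ≠ t := by
  obtain ⟨x, hx, hmem⟩ := (dense_addSubgroupClosure_pair_iff.2 h).exists_between
    (show t < t + η by linarith)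
  obtain ⟨m, n, hmn⟩ := AddSubgroup.mem_closure_pair.1 hx
  simp only [zsmul_eq_mul] at hmn
  refine ⟨n, m, ?_, ?_⟩
  · rw [abs_lt]
    constructor <;> linarith [hmem.1, hmem.2]
  · intro he
    linarith [hmem.1]

/-- If the second coordinates generate a dense group, a lattice in the plane meets every horizontal
strip arbitrarily far to the right. -/
theorem exists_far_in_strip {A1 a1 A2 a2 : ℝ} (hdet : A1 * a2 - A2 * a1 ≠ 0)
    (hirr : Irrational (a2 / a1)) (t : ℝ) {η : ℝ} (hη : 0 < η) (R : ℝ) :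
    ∃ m n : ℤ, |(m : ℝ) * a1 + n * a2 - t| < η ∧ R < (m : ℝ) * A1 + n * A2 := by
  set D := A1 * a2 - A2 * a1
  set S := |A1| + |A2| + |a1| + |a2| + 1 with hS
  -- short vectors with small height are zero
  obtain ⟨c, hc, hcle⟩ : ∃ c : ℝ, 0 < c ∧ ∀ m n : ℤ, |(m : ℝ) * a1 + n * a2| ≤ c →
      |(m : ℝ) * A1 + n * A2| ≤ c → m = 0 ∧ n = 0 := by
    have hS0 : 0 < S := by positivity
    refine ⟨|D| / (3 * S), by positivity, fun m n h1 h2 => ?_⟩
    have hcD : |D| / (3 * S) * S < |D| := by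
      rw [div_mul_eq_mul_div, div_lt_iff₀ (by positivity)]
      nlinarith [abs_pos.2 hdet]
    have key : ∀ (x : ℤ) {u v : ℝ}, (x : ℝ) * D = u * ((m : ℝ) * A1 + n * A2) -
        v * ((m : ℝ) * a1 + n * a2) → |u| + |v| ≤ S → x = 0 := fun x {u v} e hle => by
      refine Int.abs_lt_one_iff.1 ?_
      have h : |(x : ℝ)| * |D| < 1 * |D| := by
        rw [← abs_mul, e, one_mul]
        refine lt_of_le_of_lt ((abs_sub _ _).trans ?_) hcD
        rw [abs_mul, abs_mul]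
        calc |u| * |(m : ℝ) * A1 + n * A2| + |v| * |(m : ℝ) * a1 + n * a2|
            ≤ |u| * (|D| / (3 * S)) + |v| * (|D| / (3 * S)) := by gcongr
          _ = |D| / (3 * S) * (|u| + |v|) := by ring
          _ ≤ |D| / (3 * S) * S := mul_le_mul_of_nonneg_left hle (by positivity)
      exact_mod_cast lt_of_mul_lt_mul_right h (abs_nonneg _)
    refine ⟨key m (u := a2) (v := A2) (by ring) (by linarith [abs_nonneg A1, abs_nonneg a1]),
      key n (u := -a1) (v := -A1) (by ring) ?_⟩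
    rw [abs_neg, abs_neg]
    linarith [abs_nonneg A2, abs_nonneg a2]
  obtain ⟨m0, n0, h0, -⟩ := exists_combination (t := t) hirr (half_pos hη)
  obtain ⟨M, hM⟩ := exists_nat_gt ((|R - ((m0 : ℝ) * A1 + n0 * A2)|) / c + 1)
  have hM0 : (0 : ℝ) < M := lt_of_le_of_lt (by positivity) hM
  obtain ⟨m1, n1, h1, hne⟩ := exists_combination (t := 0) hirr
    (lt_min hc (show 0 < η / (2 * M) by positivity))
  rw [sub_zero, lt_min_iff] at h1
  have hA : c < |(m1 : ℝ) * A1 + n1 * A2| := not_le.1 fun hle => hne (by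
    obtain ⟨rfl, rfl⟩ := hcle m1 n1 h1.1.le hle
    simp)
  rw [lt_div_iff₀ (by positivity)] at h1
  have hRc : |R - ((m0 : ℝ) * A1 + n0 * A2)| < (M : ℝ) * c := by
    have h := mul_lt_mul_of_pos_right hM hc
    rw [add_mul, div_mul_cancel₀ _ hc.ne'] at h
    linarith
  obtain ⟨σ, hσ, hσA⟩ : ∃ σ : ℤ, |(σ : ℝ)| = 1 ∧
      (σ : ℝ) * ((m1 : ℝ) * A1 + n1 * A2) = |(m1 : ℝ) * A1 + n1 * A2| := by
    rcases le_total 0 ((m1 : ℝ) * A1 + n1 * A2) with h | h
    · exact ⟨1, by simp, by simp [abs_of_nonneg h]⟩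
    · exact ⟨-1, by simp, by simp [abs_of_nonpos h]⟩
  refine ⟨m0 + M * (σ * m1), n0 + M * (σ * n1), ?_, ?_⟩
  · push_cast
    rw [show ((m0 : ℝ) + M * (σ * m1)) * a1 + ((n0 : ℝ) + M * (σ * n1)) * a2 - t =
      ((m0 : ℝ) * a1 + n0 * a2 - t) + M * (σ * ((m1 : ℝ) * a1 + n1 * a2)) by ring]
    refine (abs_add_le _ _).trans_lt ?_
    rw [abs_mul (M : ℝ), abs_mul, hσ, one_mul, Nat.abs_cast]
    linarith [h1.2]
  · push_cast
    rw [show ((m0 : ℝ) + M * (σ * m1)) * A1 + ((n0 : ℝ) + M * (σ * n1)) * A2 =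
      ((m0 : ℝ) * A1 + n0 * A2) + M * (σ * ((m1 : ℝ) * A1 + n1 * A2)) by ring, hσA]
    nlinarith [le_abs_self (R - ((m0 : ℝ) * A1 + n0 * A2))]

end FA.LittlewoodCubic
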